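/-
S55 : WIP copy of the final file `Fermat/Agent/S55.lean` (depends on `Formal/WIP/Top.lean`, which
still contains `sorry`).  When `card_Sha` is proved, change the import and move this file.
-/
import Fermat.Statements.S55
import Fermat.Agent.S55.Bridge.Glue
import Fermat.Agent.S55.Formal.WIP.Top

set_option autoImplicit false
open CategoryTheory Module groupCohomology ExtCitation

namespace Fermat.Agent.S55.WIP

theorem result
    {p : ℕ} [Fact p.Prime] (hp2 : p ≠ 2) (S : Finset Nat.Primes) (hpS : pPrime p ∈ S)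
    (M : Rep (ZMod p) (AlgebraicClosure ℚ ≃ₐ[ℚ] AlgebraicClosure ℚ))
    [FiniteDimensional (ZMod p) M]
    (hsm : ∀ m : M, ∃ F : IntermediateField ℚ (AlgebraicClosure ℚ), FiniteDimensional ℚ F ∧
      ∀ s ∈ F.fixingSubgroup, M.ρ s m = m)
    (hMur : ∀ q : Nat.Primes, q ∉ S → ∀ A : ValuationSubring (AlgebraicClosure ℚ),
      A.LiesOverPrime (q : ℕ) → ∀ g ∈ A.inertiaSubgroupIn ℚ, M.ρ g = 1) :
    ∃ B : sha₁ S (M.dualTwist (cycloChar p)) →ₗ[ZMod p] sha₂ S M →ₗ[ZMod p] ZMod p,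
      (∀ y, (∀ x, B y x = 0) → y = 0) ∧ (∀ x, (∀ y, B y x = 0) → x = 0) :=
  Fermat.Agent.S55.Bridge.frozen_of_F1 hp2 S M hsm hMur
    (fun N _ _ hfin hsmooth hN => Fermat.Agent.S55.card_Sha hp2 hpS N ⟨hfin, hN, hsmooth⟩)

end Fermat.Agent.S55.WIP
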